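import Mathlib
import Fermat.Agent.H99.SS2.ClassRegSmVal3
import Fermat.Agent.H60.SS2.ValLemmas

/-!
# P-SS2, `q = 2` (helper60): REG11 is void for `q = 2`

For `q = 2` the middle component `C₁₁` has multiplicity `q - 1 = 1`: by the table `Val3Data`
(`unif₁₁`, `ram₁₁`) the prime number `q` itself is a uniformiser of `V₁₁`, and the residue degree
of `V₁₁ / O₁` along `α` is one (`res₁₁α`).  So a point lying on `V₁₁` only is regular with
parameters `(q, U)` by helper99's REGSM, exactly like the points on `V₂₀` only; the blocks REG11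
(row 902) and CUSP11 (row 1065) are not needed.

* `isUniformiser_of_ram_one` : `q` is a uniformiser of `V₁₁` if `q - 1 = 1`.
* `reg11_two` : REGSM for `V₁₁` along `α`.
* `classReg_two` : CLASS + REGSM + REG11 from `Val3Data` and `RegLAt` when `q - 1 = 1`:
  every closed point of the special fibre is a triple point or a regular point `(q, U)` on
  exactly one of the three components.
-/

set_option autoImplicit false
set_option linter.unusedSectionVars false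
set_option linter.style.haveILetI false

noncomputable section

namespace Fermat.Agent.H60.SS2Nine

open Fermat.Agent.H22.KL Fermat.Agent.H11.SS2 Fermat.Agent.H7.SS2 Fermat.Agent.H99.SS2
open Fermat.Agent.H60.SS2

section Unif

variable {E : Type} [Field E]

/-- If `Z` is a uniformiser of `V` and `t / Z ^ (q - 1)` is a unit of `V` with `q - 1 = 1`, then
`t` is a uniformiser of `V`. -/
theorem isUniformiser_of_ram_one {V : ValuationSubring E} {Z t : E} {q : ℕ} (hq1 : q - 1 = 1)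
    (hu : DKUnif V Z) (hr : VUnit V (t / Z ^ (q - 1))) (ht : t ≠ 0) :
    IsUniformiser E V t := by
  rw [hq1, pow_one] at hr
  obtain ⟨hZ0, hZm, hZd⟩ := hu
  obtain ⟨hr1, hr2⟩ := hr
  refine ⟨ht, ?_, ?_⟩
  · have e : t = Z * (t / Z) := by field_simp
    rw [e]
    exact vs_mem_nonunits_of_mul hZm hr1
  · intro y hy
    have e : y / t = (y / Z) * (t / Z)⁻¹ := by
      field_simp
    rw [e]
    exact V.mul_mem _ _ (hZd y hy) hr2

end Unif

section Main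

variable {A : Type} [CommRing A] [IsDomain A] [IsDiscreteValuationRing A]
variable {E' : Type} [Field E'] [Algebra A E'] [CharZero E']
variable {E : Type} [Field E] [Algebra A E]

/-- **REG11 for `q = 2`** (`q - 1 = 1`): a point on `V₁₁` only, above a smooth point of `O₁`
along `α`, is a regular point with parameters `(q, U)`. -/
theorem reg11_two (hinj' : Function.Injective (algebraMap A E'))
    (hinj : Function.Injective (algebraMap A E))
    (q : ℕ) (hq1 : q - 1 = 1) (hq : Irreducible ((q : ℕ) : A)) {y' : E'}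
    (hy' : Transcendental A y')
    (hfd' : ∃ n : ℕ, Nonempty (Module.Basis (Fin n) (chartField A E' y') E'))
    {y : E} (hy : Transcendental A y)
    (α β : E' →+* E) (hα : ∀ a : A, α (algebraMap A E' a) = algebraMap A E a)
    (O₁ O₂ : ValuationSubring E') (V₂₀ V₁₁ V₀₂ : ValuationSubring E) (Y₁ : E') (Z : E)
    (hval : Val3Data α β O₁ O₂ V₂₀ V₁₁ V₀₂ q Y₁ Z)
    (hV20 : IsVertical A E ((q : ℕ) : A) y V₂₀) (hV11 : IsVertical A E ((q : ℕ) : A) y V₁₁)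
    (hV02 : IsVertical A E ((q : ℕ) : A) y V₀₂)
    (hgauss : ∀ z : E, z ∈ V₂₀ → z ∈ V₁₁ → z ∈ V₀₂ → z ∈ gaussClosure A E ((q : ℕ) : A) y)
    (hfrac10 : ∀ z' ∈ O₁, ∃ d₁ d₂ : chartClosure A E' y',
      (d₂ : E') ∉ O₁.nonunits ∧ z' * (d₂ : E') = d₁)
    (𝔪 : Ideal (chartClosure A E y)) (h𝔪 : 𝔪.IsPrime)
    (𝔪α : Ideal (chartClosure A E' y')) (h𝔪α : 𝔪α.IsPrime)
    (hLα : LiesOverAlong A E E' α y' y 𝔪α 𝔪)
    (h11 : Through A E y 𝔪 V₁₁) (h20 : ¬ Through A E y 𝔪 V₂₀) (h02 : ¬ Through A E y 𝔪 V₀₂)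
    (U' : E')
    (hreg' : IsRegPoint A E' ((q : ℕ) : A) y' 𝔪α O₁ (algebraMap A E' ((q : ℕ) : A)) U') :
    ∃ U : E, IsRegPoint A E ((q : ℕ) : A) y 𝔪 V₁₁ (algebraMap A E ((q : ℕ) : A)) U := by
  classical
  have hcast : algebraMap A E ((q : ℕ) : A) = (q : E) := map_natCast _ q
  have hq0 : (q : E) ≠ 0 := by
    rw [← hcast]
    intro h0
    exact hq.ne_zero (hinj (by rw [h0, map_zero]))
  have hB : ∀ V : ValuationSubring E, IsVertical A E ((q : ℕ) : A) y V →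
      ∀ z ∈ chartClosure A E y, z ∈ V := fun V hV z hz =>
    hV.2.2.1 z (Fermat.Agent.H89.klg_chartClosure_le_gaussClosure hq hy hz)
  have hu20 : IsUniformiser E V₂₀ (algebraMap A E ((q : ℕ) : A)) := by
    rw [hcast]; exact hval.unif₂₀
  have hu02 : IsUniformiser E V₀₂ (algebraMap A E ((q : ℕ) : A)) := by
    rw [hcast]; exact hval.unif₀₂
  have hu11 : IsUniformiser E V₁₁ (algebraMap A E ((q : ℕ) : A)) := by
    rw [hcast]; exact isUniformiser_of_ram_one hq1 hval.unif₁₁ hval.ram₁₁ hq0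
  refine regsm_exists hinj' hinj hq hy' hfd' hy α hα 𝔪 h𝔪 𝔪α h𝔪α hLα V₁₁ hV11 h11 hu11
    ({V₂₀, V₀₂} : Finset _) ?_ ?_ ?_ ?_ O₁ hval.comap₁₁α hval.res₁₁α hfrac10 U' hreg'
  · exact fun z hz hS => hgauss z (hS _ (by simp)) hz (hS _ (by simp))
  · intro V hV
    simp only [Finset.mem_insert, Finset.mem_singleton] at hV
    rcases hV with rfl | rfl
    exacts [hB _ hV20, hB _ hV02]
  · intro V hV
    simp only [Finset.mem_insert, Finset.mem_singleton] at hV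
    rcases hV with rfl | rfl
    exacts [pow_div_mem_of_isUniformiser hu20, pow_div_mem_of_isUniformiser hu02]
  · intro V hV
    simp only [Finset.mem_insert, Finset.mem_singleton] at hV
    rcases hV with rfl | rfl
    exacts [h20, h02]

/-- **CLASS + REGSM + REG11 for `q = 2`** (`q - 1 = 1`), from `Val3Data` and `RegLAt`: every
closed point of the special fibre is a triple point, or a regular point `(q, U)` on exactly one
of the three components. -/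
theorem classReg_two (hinj' : Function.Injective (algebraMap A E'))
    (hinj : Function.Injective (algebraMap A E))
    (q : ℕ) (hq1 : q - 1 = 1) (hq : Irreducible ((q : ℕ) : A)) {y' : E'}
    (hy' : Transcendental A y')
    (hfd' : ∃ n : ℕ, Nonempty (Module.Basis (Fin n) (chartField A E' y') E'))
    {y : E} (hy : Transcendental A y)
    (α β : E' →+* E) (hα : ∀ a : A, α (algebraMap A E' a) = algebraMap A E a)
    (hβ : ∀ a : A, β (algebraMap A E' a) = algebraMap A E a)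
    (O₁ O₂ : ValuationSubring E') (V₂₀ V₁₁ V₀₂ : ValuationSubring E) (Y₁ : E') (Z : E)
    (hval : Val3Data α β O₁ O₂ V₂₀ V₁₁ V₀₂ q Y₁ Z)
    (hV20 : IsVertical A E ((q : ℕ) : A) y V₂₀) (hV11 : IsVertical A E ((q : ℕ) : A) y V₁₁)
    (hV02 : IsVertical A E ((q : ℕ) : A) y V₀₂)
    (hgauss : ∀ z : E, z ∈ V₂₀ → z ∈ V₁₁ → z ∈ V₀₂ → z ∈ gaussClosure A E ((q : ℕ) : A) y)
    (hfrac10 : ∀ z' ∈ O₁, ∃ d₁ d₂ : chartClosure A E' y',
      (d₂ : E') ∉ O₁.nonunits ∧ z' * (d₂ : E') = d₁)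
    (hfrac01 : ∀ z' ∈ O₂, ∃ d₁ d₂ : chartClosure A E' y',
      (d₂ : E') ∉ O₂.nonunits ∧ z' * (d₂ : E') = d₁)
    (𝔪 : Ideal (chartClosure A E y)) (h𝔪 : 𝔪.IsPrime)
    (hϖ𝔪 : algebraMap A (chartClosure A E y) ((q : ℕ) : A) ∈ 𝔪)
    (𝔪α 𝔪β : Ideal (chartClosure A E' y')) (h𝔪α : 𝔪α.IsPrime) (h𝔪β : 𝔪β.IsPrime)
    (hLα : LiesOverAlong A E E' α y' y 𝔪α 𝔪) (hLβ : LiesOverAlong A E E' β y' y 𝔪β 𝔪)
    (X Y : E') (hregα : RegLAt A E' ((q : ℕ) : A) y' 𝔪α O₁ O₂ X Y)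
    (hregβ : RegLAt A E' ((q : ℕ) : A) y' 𝔪β O₁ O₂ X Y)
    (hUα : Through A E' y' 𝔪α O₁ → Through A E' y' 𝔪α O₂ → UniqueAbove A E E' α y' y 𝔪α 𝔪)
    (hUβ : Through A E' y' 𝔪β O₁ → Through A E' y' 𝔪β O₂ → UniqueAbove A E E' β y' y 𝔪β 𝔪) :
    (Through A E y 𝔪 V₂₀ ∧ Through A E y 𝔪 V₁₁ ∧ Through A E y 𝔪 V₀₂ ∧
      Through A E' y' 𝔪α O₁ ∧ Through A E' y' 𝔪α O₂ ∧
      Through A E' y' 𝔪β O₁ ∧ Through A E' y' 𝔪β O₂) ∨
    (Through A E y 𝔪 V₂₀ ∧ ¬ Through A E y 𝔪 V₁₁ ∧ ¬ Through A E y 𝔪 V₀₂ ∧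
      ∃ U : E, IsRegPoint A E ((q : ℕ) : A) y 𝔪 V₂₀ (algebraMap A E ((q : ℕ) : A)) U) ∨
    (Through A E y 𝔪 V₁₁ ∧ ¬ Through A E y 𝔪 V₂₀ ∧ ¬ Through A E y 𝔪 V₀₂ ∧
      ∃ U : E, IsRegPoint A E ((q : ℕ) : A) y 𝔪 V₁₁ (algebraMap A E ((q : ℕ) : A)) U) ∨
    (Through A E y 𝔪 V₀₂ ∧ ¬ Through A E y 𝔪 V₂₀ ∧ ¬ Through A E y 𝔪 V₁₁ ∧
      ∃ U : E, IsRegPoint A E ((q : ℕ) : A) y 𝔪 V₀₂ (algebraMap A E ((q : ℕ) : A)) U) := by
  rcases classRegSm_val3 hinj' hinj q hq hy' hfd' hy α β hα hβ O₁ O₂ V₂₀ V₁₁ V₀₂ Y₁ Z hval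
    hV20 hV11 hV02 hgauss hfrac10 hfrac01 𝔪 h𝔪 hϖ𝔪 𝔪α 𝔪β h𝔪α h𝔪β hLα hLβ X Y hregα hregβ
    hUα hUβ with h | h | h | h
  · exact Or.inl h
  · obtain ⟨h20, h11, h02, hU⟩ := h
    exact Or.inr (Or.inl ⟨h20, not_passesThrough_iff.2 h11, not_passesThrough_iff.2 h02, hU⟩)
  · obtain ⟨h11, h20, h02, ha10, ha01, -, -⟩ := h
    have n20 : ¬ Through A E y 𝔪 V₂₀ := not_passesThrough_iff.2 h20
    have n02 : ¬ Through A E y 𝔪 V₀₂ := not_passesThrough_iff.2 h02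
    obtain ⟨U', hreg'⟩ := regLAt_smooth₁ hregα ha10 ha01
    exact Or.inr (Or.inr (Or.inl ⟨h11, n20, n02,
      reg11_two hinj' hinj q hq1 hq hy' hfd' hy α β hα O₁ O₂ V₂₀ V₁₁ V₀₂ Y₁ Z hval hV20 hV11
        hV02 hgauss hfrac10 𝔪 h𝔪 𝔪α h𝔪α hLα h11 n20 n02 U' hreg'⟩))
  · obtain ⟨h02, h20, h11, hU⟩ := h
    exact Or.inr (Or.inr (Or.inr
      ⟨h02, not_passesThrough_iff.2 h20, not_passesThrough_iff.2 h11, hU⟩))

end Main

end Fermat.Agent.H60.SS2Nine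

end
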