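import Fermat.Agent.H31.SS.Haupt9
import Fermat.Agent.H17.ESD.PSTrunc

/-!
# P-SS2, `q = 2` twin (helper60): the constant coefficient of the level-9 Hauptmodul

`H₉ = t⁻¹ - 3 + …` : `h9S_coeff_zero : (h9S k).coeff 0 = -3`.
-/

set_option autoImplicit false

noncomputable section

namespace Fermat.Agent.H60.SS2Nine

open PowerSeries Fermat.Agent.H1.ESD Fermat.Agent.H31.SS

theorem nine_coeff_one_mul (f g : ℤ⟦X⟧) :
    coeff 1 (f * g) = constantCoeff f * coeff 1 g + coeff 1 f * constantCoeff g := by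
  rw [PowerSeries.coeff_mul, Finset.Nat.antidiagonal_succ]
  simp

theorem nine_coeff_one_ex3 (f : ℤ⟦X⟧) : coeff 1 (ex3 f) = 0 := by
  rw [ex3]
  exact PowerSeries.coeff_expand_of_not_dvd 3 (by norm_num) f (by norm_num)

theorem nine_coeff_one_pA : coeff 1 pA = -12 := by
  rw [pA, Fermat.Agent.H17.ESD.eta12_trunc.coeff_eq (m := 1) (by norm_num)]
  simp [PowerSeries.coeff_mul_X_pow', map_ofNat]

theorem nine_coeff_one_t3Num : coeff 1 t3Num = -12 := by
  rw [t3Num, nine_coeff_one_mul, constantCoeff_pA, nine_coeff_one_ex3, nine_coeff_one_pA,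
    constantCoeff_ex3, constantCoeff_pAinv]
  norm_num

theorem nine_coeff_one_X_mul (f : ℤ⟦X⟧) : coeff 1 (X * f) = constantCoeff f := by
  rw [show (1 : ℕ) = 0 + 1 from rfl, PowerSeries.coeff_succ_X_mul,
    PowerSeries.coeff_zero_eq_constantCoeff]

theorem nine_coeff_one_X_pow_mul (n : ℕ) (hn : 2 ≤ n) (f : ℤ⟦X⟧) : coeff 1 (X ^ n * f) = 0 := by
  rw [PowerSeries.coeff_X_pow_mul']
  simp only [ite_eq_right_iff]
  intro h
  omega

theorem nine_coeff_one_h9NumU : coeff 1 h9NumU = -6 := by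
  have e : h9NumU = X ^ 4 * (1458 * t3Num) +
      ex3 t3Num * (t3Num ^ 2 + X * (18 * t3Num) + X ^ 2 * 27) := by
    rw [h9NumU]; ring
  rw [e, map_add, nine_coeff_one_X_pow_mul 4 (by norm_num), nine_coeff_one_mul,
    constantCoeff_ex3, constantCoeff_t3Num, nine_coeff_one_ex3, map_add, map_add,
    nine_coeff_one_X_pow_mul 2 (by norm_num), nine_coeff_one_X_mul, pow_two,
    nine_coeff_one_mul, constantCoeff_t3Num, nine_coeff_one_t3Num]
  simp [constantCoeff_t3Num, map_ofNat]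

theorem nine_coeff_one_h9DenU : coeff 1 h9DenU = -3 := by
  have e : h9DenU = (t3Num + X * 9) * ex3 t3Num - X ^ 3 * (243 * t3Num) + X ^ 4 * 729 := by
    rw [h9DenU]; ring
  have h1 : coeff 1 (t3Num + X * 9) = -3 := by
    rw [map_add, nine_coeff_one_X_mul, nine_coeff_one_t3Num]
    simp [map_ofNat]
  have h0 : constantCoeff (t3Num + X * 9) = 1 := by
    simp [constantCoeff_t3Num]
  rw [e, map_add, map_sub, nine_coeff_one_X_pow_mul 3 (by norm_num),
    nine_coeff_one_X_pow_mul 4 (by norm_num), nine_coeff_one_mul, h0, h1, constantCoeff_ex3,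
    constantCoeff_t3Num, nine_coeff_one_ex3]
  norm_num

theorem nine_coeff_one_h9DenUinv : coeff 1 h9DenUinv = 3 := by
  have h := congrArg (coeff 1) h9DenU_mul_inv
  rw [nine_coeff_one_mul, constantCoeff_h9DenU, constantCoeff_h9DenUinv,
    nine_coeff_one_h9DenU] at h
  simp at h
  linarith

theorem nine_coeff_one_h9U : coeff 1 h9U = -3 := by
  rw [h9U, nine_coeff_one_mul, constantCoeff_h9NumU, constantCoeff_h9DenUinv,
    nine_coeff_one_h9NumU, nine_coeff_one_h9DenUinv]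
  norm_num

/-- `H₉ = t⁻¹ - 3 + …` -/
theorem h9S_coeff_zero (k : Type*) [CommRing k] : (h9S k).coeff 0 = -3 := by
  rw [h9S_coeff]
  have h : ((0 : ℤ) + 1) = ((1 : ℕ) : ℤ) := by norm_num
  rw [h, HahnSeries.ofPowerSeries_apply_coeff, PowerSeries.coeff_map, nine_coeff_one_h9U]
  simp

end Fermat.Agent.H60.SS2Nine

end
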