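import Fermat.Agent.H35.SS2.AsmDefs
import Fermat.Agent.H35.SS2.AsmBase
import Fermat.Agent.H35.SS2.ChartBeta
import Fermat.Agent.H99.SS2.AsmPt
import Fermat.Agent.H99.SS2.FracL
import Fermat.Agent.H99.SS2.CuspBeta
import Fermat.Agent.H4.SS.Hartogs
import Fermat.Agent.H89.KLGauss

/-!
# P-SS2 (helper60): (P) POINTS of the assembly from the landed leaves, Hauptmodul-free

Setting of `Fermat.Agent.H35.SS2.AsmDefs` (helper35): `F = ModelField K₁ (M' q)`,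
`E₀ = ModelField K₁ (M' q q)`, `α = asmα`, `β = asmβ`, base `OK` with uniformiser `q`,
`O₁ = vInf`, `O₂ = vZero W`.

`asmPoints_of_inputs` : the block (P) `AsmPoints` of helper35's geometric package from

* (G) `AsmGlobal` (helper61);
* the Kronecker relations at the model level (the conclusion of helper93's `modelKronRel_gen`);
* REGL at level `M' q` in the chart `j` (`RegLAtOne`) and in the chart `j⁻¹` (`RegLAt`), and
  "the cusps of level `M' q` are not nodes" (helper7's `CuspGenRStatement`);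
* the regularity at the points lying on `V₁₁` only (`Reg11Hyp`), in both charts.

The proof is helper99's per-point theorems `asmPt_val3_below` and `asmPt_val3_cusp_below` with
helper99's `modelFrac_*` (localisations) and `modelCusp_beta` (`β` at the cusps) and helper35's
chart equalities.  Nothing depends on the Hauptmodul.
-/

set_option autoImplicit false
set_option linter.style.haveILetI false
set_option linter.unusedSectionVars false
set_option linter.unusedVariables false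
set_option maxHeartbeats 1600000

noncomputable section

namespace Fermat.Agent.H60.SS2Nine

open ModularCurve AlgebraicCurve
open Fermat.Agent.H22.KL Fermat.Agent.H11.SS2 Fermat.Agent.H82.SS Fermat.Agent.H7.SS2
open Fermat.Agent.H35.SS2 Fermat.Agent.H19.SS2

section Abs

variable (A : Type) [CommRing A] (E' E : Type) [Field E'] [Field E] [Algebra A E']
  [Algebra A E]

/-- **REG11 as a hypothesis**, in the chart `y` of `E` above the chart `y'` of `E'`: every closed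
point of the special fibre lying on `V₁₁` only (above a point on `O₁` only along `α` and a point
on `O₂` only along `β`) is a regular point of `V₁₁`. -/
def Reg11Hyp (q : ℕ) (α β : E' →+* E) (O₁ O₂ : ValuationSubring E')
    (V₂₀ V₁₁ V₀₂ : ValuationSubring E) (y' : E') (y : E) : Prop :=
  ∀ 𝔪 : Ideal (chartClosure A E y), 𝔪.IsMaximal →
    algebraMap A (chartClosure A E y) ((q : ℕ) : A) ∈ 𝔪 →
    ∀ 𝔪α 𝔪β : Ideal (chartClosure A E' y'), 𝔪α.IsMaximal → 𝔪β.IsMaximal →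
      Fermat.Agent.H99.SS2.LiesOverAlong A E E' α y' y 𝔪α 𝔪 →
      Fermat.Agent.H99.SS2.LiesOverAlong A E E' β y' y 𝔪β 𝔪 →
      Through A E y 𝔪 V₁₁ → ¬ Through A E y 𝔪 V₂₀ → ¬ Through A E y 𝔪 V₀₂ →
      Through A E' y' 𝔪α O₁ → ¬ Through A E' y' 𝔪α O₂ →
      Through A E' y' 𝔪β O₂ → ¬ Through A E' y' 𝔪β O₁ →
      ∃ x₁ x₂ : E, IsRegPoint A E ((q : ℕ) : A) y 𝔪 V₁₁ x₁ x₂

end Abs

section Model

variable (M' q : ℕ) [NeZero M'] [NeZero q]
  (K₁ : Type) [Field K₁] [Algebra ℚ K₁] [FiniteDimensional ℚ K₁] (OK : ValuationSubring K₁)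
  [IsDiscreteValuationRing ↥OK]
  [Algebra ↥OK (ModelField K₁ (M' * q))] [IsScalarTower ↥OK K₁ (ModelField K₁ (M' * q))]
  [Algebra ↥OK (ModelField K₁ (M' * q * q))]
  [IsScalarTower ↥OK K₁ (ModelField K₁ (M' * q * q))]

/-- `α` is a homomorphism over the base. -/
theorem pg_alpha_algebraMap (a : ↥OK) :
    asmα M' q K₁ (algebraMap ↥OK (ModelField K₁ (M' * q)) a) =
      algebraMap ↥OK (ModelField K₁ (M' * q * q)) a := by
  rw [IsScalarTower.algebraMap_apply ↥OK K₁ (ModelField K₁ (M' * q)),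
    IsScalarTower.algebraMap_apply ↥OK K₁ (ModelField K₁ (M' * q * q))]
  exact (heckeAlphaBar K₁ (M' * q) q).commutes _

/-- `β` is a homomorphism over the base. -/
theorem pg_beta_algebraMap (a : ↥OK) :
    asmβ M' q K₁ (algebraMap ↥OK (ModelField K₁ (M' * q)) a) =
      algebraMap ↥OK (ModelField K₁ (M' * q * q)) a := by
  rw [IsScalarTower.algebraMap_apply ↥OK K₁ (ModelField K₁ (M' * q)),
    IsScalarTower.algebraMap_apply ↥OK K₁ (ModelField K₁ (M' * q * q))]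
  exact (heckeBetaBar K₁ (M' * q) q).commutes _

/-- **(P) POINTS from the landed leaves**, Hauptmodul-free. -/
theorem asmPoints_of_inputs (hq : q.Prime) (hqM : ¬ q ∣ M')
    (hirr : Irreducible ((q : ℕ) : ↥OK))
    (W : ModelField K₁ (M' * q) ≃ₐ[K₁] ModelField K₁ (M' * q))
    (hW : IsAtkinLehnerModel K₁ M' q W)
    (x : ModelField K₁ (M' * q * q)) (hx : (x : LaurentSeries K₁) = jqModC K₁)
    (xL : ModelField K₁ (M' * q)) (hxL : (xL : LaurentSeries K₁) = jqModC K₁)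
    (X₁ Y₁ : ModelField K₁ (M' * q)) (Z : ModelField K₁ (M' * q * q))
    (V20 V11 V02 : ValuationSubring (ModelField K₁ (M' * q * q)))
    (hG : AsmGlobal M' q K₁ OK x (vInf K₁ ↥OK (M' * q)) (vZero K₁ ↥OK (M' * q) W)
      V20 V11 V02 Y₁ Z)
    -- the Kronecker relations
    (hZ : Z ∈ chartClosure ↥OK (ModelField K₁ (M' * q * q)) x)
    (hX₂ : asmβ M' q K₁ X₁ = Z + asmα M' q K₁ Y₁)
    (Gα Gβ : ModelField K₁ (M' * q * q))
    (hGα : ∀ 𝔫 : Ideal (chartClosure ↥OK (ModelField K₁ (M' * q * q)) x), 𝔫.IsMaximal →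
      algebraMap ↥OK (chartClosure ↥OK (ModelField K₁ (M' * q * q)) x) ((q : ℕ) : ↥OK) ∈ 𝔫 →
      InLoc ↥OK (ModelField K₁ (M' * q * q)) x 𝔫 Gα)
    (hGβ : ∀ 𝔫 : Ideal (chartClosure ↥OK (ModelField K₁ (M' * q * q)) x), 𝔫.IsMaximal →
      algebraMap ↥OK (chartClosure ↥OK (ModelField K₁ (M' * q * q)) x) ((q : ℕ) : ↥OK) ∈ 𝔫 →
      InLoc ↥OK (ModelField K₁ (M' * q * q)) x 𝔫 Gβ)
    (hrelα : Z ^ (q - 1) * (Z + asmα M' q K₁ Y₁) - asmα M' q K₁ X₁ +
      algebraMap ↥OK (ModelField K₁ (M' * q * q)) ((q : ℕ) : ↥OK) * Gα = 0)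
    (hrelβ : (-Z) ^ (q - 1) * (-Z + asmβ M' q K₁ X₁) - asmβ M' q K₁ Y₁ +
      algebraMap ↥OK (ModelField K₁ (M' * q * q)) ((q : ℕ) : ↥OK) * Gβ = 0)
    -- REGL at level `M' q`
    (hregChart : ∀ 𝔪' : Ideal (chartClosure ↥OK (ModelField K₁ (M' * q)) xL), 𝔪'.IsMaximal →
      algebraMap ↥OK (chartClosure ↥OK (ModelField K₁ (M' * q)) xL) ((q : ℕ) : ↥OK) ∈ 𝔪' →
      RegLAtOne ↥OK (ModelField K₁ (M' * q)) ((q : ℕ) : ↥OK) xL 𝔪'
        (vInf K₁ ↥OK (M' * q)) (vZero K₁ ↥OK (M' * q) W) X₁ Y₁)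
    (hregInv : ∀ 𝔪' : Ideal (chartClosure ↥OK (ModelField K₁ (M' * q)) xL⁻¹), 𝔪'.IsMaximal →
      algebraMap ↥OK (chartClosure ↥OK (ModelField K₁ (M' * q)) xL⁻¹) ((q : ℕ) : ↥OK) ∈ 𝔪' →
      RegLAt ↥OK (ModelField K₁ (M' * q)) ((q : ℕ) : ↥OK) xL⁻¹ 𝔪'
        (vInf K₁ ↥OK (M' * q)) (vZero K₁ ↥OK (M' * q) W) X₁ Y₁)
    (hcuspL : ∀ 𝔪' : Ideal (chartClosure ↥OK (ModelField K₁ (M' * q)) xL⁻¹), 𝔪'.IsMaximal →
      algebraMap ↥OK (chartClosure ↥OK (ModelField K₁ (M' * q)) xL⁻¹) ((q : ℕ) : ↥OK) ∈ 𝔪' →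
      (∀ h : xL⁻¹ ∈ chartClosure ↥OK (ModelField K₁ (M' * q)) xL⁻¹,
        (⟨xL⁻¹, h⟩ : chartClosure ↥OK (ModelField K₁ (M' * q)) xL⁻¹) ∈ 𝔪') →
      ¬ (Through ↥OK (ModelField K₁ (M' * q)) xL⁻¹ 𝔪' (vInf K₁ ↥OK (M' * q)) ∧
        Through ↥OK (ModelField K₁ (M' * q)) xL⁻¹ 𝔪' (vZero K₁ ↥OK (M' * q) W)))
    -- REG11 in both charts
    (h11 : Reg11Hyp ↥OK (ModelField K₁ (M' * q)) (ModelField K₁ (M' * q * q)) q
      (asmα M' q K₁) (asmβ M' q K₁) (vInf K₁ ↥OK (M' * q)) (vZero K₁ ↥OK (M' * q) W)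
      V20 V11 V02 xL x)
    (h11i : Reg11Hyp ↥OK (ModelField K₁ (M' * q)) (ModelField K₁ (M' * q * q)) q
      (asmα M' q K₁) (asmβ M' q K₁) (vInf K₁ ↥OK (M' * q)) (vZero K₁ ↥OK (M' * q) W)
      V20 V11 V02 xL⁻¹ x⁻¹) :
    AsmPoints M' q K₁ OK x (vInf K₁ ↥OK (M' * q)) (vZero K₁ ↥OK (M' * q) W) V20 V11 V02 := by
  classical
  haveI : CharZero K₁ := algebraRat.charZero K₁
  haveI : CharZero (ModelField K₁ (M' * q)) :=
    charZero_of_injective_algebraMap (algebraMap K₁ (ModelField K₁ (M' * q))).injective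
  haveI hN : NeZero (M' * q * q) :=
    ⟨Nat.mul_ne_zero (Nat.mul_ne_zero (NeZero.ne M') (NeZero.ne q)) (NeZero.ne q)⟩
  haveI hL : NeZero (M' * q) := ⟨Nat.mul_ne_zero (NeZero.ne M') (NeZero.ne q)⟩
  haveI : CharZero (ModelField K₁ (M' * q * q)) :=
    charZero_of_injective_algebraMap (algebraMap K₁ (ModelField K₁ (M' * q * q))).injective
  have hqA : ¬ IsUnit ((q : ℕ) : ↥OK) := hirr.not_isUnit
  have hinj' : Function.Injective (algebraMap ↥OK (ModelField K₁ (M' * q))) :=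
    asm_algebraMap_injective (M' * q) K₁ OK
  have hinj : Function.Injective (algebraMap ↥OK (ModelField K₁ (M' * q * q))) :=
    asm_algebraMap_injective (M' * q * q) K₁ OK
  have hyL : Transcendental ↥OK xL := asm_transcendental (M' * q) K₁ OK xL hxL
  have hfdL := asm_finite (M' * q) K₁ OK xL hxL
  have hyx : Transcendental ↥OK x := asm_transcendental (M' * q * q) K₁ OK x hx
  have hfdx := asm_finite (M' * q * q) K₁ OK x hx
  have hxLc : (xL : LaurentSeries K₁) = coeffEmb K₁ jq := by rw [ss2_coeffEmb_jq]; exact hxL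
  have hα := pg_alpha_algebraMap M' q K₁ OK
  have hβ := pg_beta_algebraMap M' q K₁ OK
  have hαx : asmα M' q K₁ xL = x := ss2_alpha_chart (M' * q) q K₁ x xL hx hxL
  have hgauss : ∀ z : ModelField K₁ (M' * q * q), z ∈ V20 → z ∈ V11 → z ∈ V02 →
      z ∈ gaussClosure ↥OK (ModelField K₁ (M' * q * q)) ((q : ℕ) : ↥OK) x :=
    fun z h1 h2 h3 => (hG.gauss z).2 ⟨h1, h2, h3⟩
  refine ⟨fun 𝔪 h𝔪 hq𝔪 => ?_, fun 𝔪 h𝔪 hq𝔪 hinv => ?_⟩
  · -- the chart `j`
    have hcα : chartClosure ↥OK (ModelField K₁ (M' * q * q)) (asmα M' q K₁ xL) =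
        chartClosure ↥OK (ModelField K₁ (M' * q * q)) x := by rw [hαx]
    have hcβ : chartClosure ↥OK (ModelField K₁ (M' * q * q)) (asmβ M' q K₁ xL) =
        chartClosure ↥OK (ModelField K₁ (M' * q * q)) x :=
      ss2_chartClosure_beta_eq (M' * q) q hq K₁ ↥OK x xL hx hxL
    exact Fermat.Agent.H99.SS2.asmPt_val3_below Fermat.Agent.H4.SS.localHartogs hinj' hinj q
      hq.two_le hirr hyL hfdL hyx hfdx (asmα M' q K₁) (asmβ M' q K₁) hα hβ hcα hcβ
      (vInf K₁ ↥OK (M' * q)) (vZero K₁ ↥OK (M' * q) W) V20 V11 V02 X₁ Y₁ Z hG.val3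
      hG.vert20 hG.vert11 hG.vert02 hgauss
      (Fermat.Agent.H99.SS2.modelFrac_vInf M' q K₁ ↥OK hq hqM hqA xL hxLc W hW)
      (Fermat.Agent.H99.SS2.modelFrac_vZero M' q K₁ ↥OK hq hqM hqA xL hxLc W hW)
      hregChart hX₂ hZ Gα Gβ hGα hrelα hGβ hrelβ 𝔪 h𝔪 hq𝔪 (h11 𝔪 h𝔪 hq𝔪)
  · -- the chart `j⁻¹` at the cusps
    obtain ⟨hxi, hxi𝔪⟩ := hinv
    have h𝔪p : 𝔪.IsPrime := h𝔪.isPrime
    have hyLi : Transcendental ↥OK xL⁻¹ := Fermat.Agent.H89.klg_transcendental_inv hyL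
    have hyxi : Transcendental ↥OK x⁻¹ := Fermat.Agent.H89.klg_transcendental_inv hyx
    have hfdLi : ∃ n : ℕ, Nonempty (Module.Basis (Fin n)
        (chartField ↥OK (ModelField K₁ (M' * q)) xL⁻¹) (ModelField K₁ (M' * q))) := by
      rw [Fermat.Agent.H89.klg_chartField_inv]
      exact hfdL
    have hfdxi : ∃ n : ℕ, Nonempty (Module.Basis (Fin n)
        (chartField ↥OK (ModelField K₁ (M' * q * q)) x⁻¹) (ModelField K₁ (M' * q * q))) := by
      rw [Fermat.Agent.H89.klg_chartField_inv]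
      exact hfdx
    obtain ⟨-, -, hCinv⟩ := Fermat.Agent.H89.gaussClosureStatement ↥OK
      (ModelField K₁ (M' * q * q)) hinj _ hirr x hyx
    have hverti : ∀ V : ValuationSubring (ModelField K₁ (M' * q * q)),
        IsVertical ↥OK (ModelField K₁ (M' * q * q)) ((q : ℕ) : ↥OK) x V →
        IsVertical ↥OK (ModelField K₁ (M' * q * q)) ((q : ℕ) : ↥OK) x⁻¹ V := by
      intro V hV
      refine ⟨hV.1, hV.2.1, fun z hz => hV.2.2.1 z ?_, hV.2.2.2⟩
      rw [← hCinv]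
      exact hz
    have hgaussi : ∀ z : ModelField K₁ (M' * q * q), z ∈ V20 → z ∈ V11 → z ∈ V02 →
        z ∈ gaussClosure ↥OK (ModelField K₁ (M' * q * q)) ((q : ℕ) : ↥OK) x⁻¹ := by
      intro z h1 h2 h3
      rw [hCinv]
      exact hgauss z h1 h2 h3
    have hαxi : asmα M' q K₁ xL⁻¹ = x⁻¹ := by rw [map_inv₀, hαx]
    -- `α` at the cusp
    have hφα : ∀ s : chartClosure ↥OK (ModelField K₁ (M' * q)) xL⁻¹,
        Fermat.Agent.H99.SS2.InLoc ↥OK (ModelField K₁ (M' * q * q)) x⁻¹ 𝔪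
          (asmα M' q K₁ s) := by
      intro s
      have h := Fermat.Agent.H99.SS2.map_mem_chartClosure_self (asmα M' q K₁) hα s.2
      rw [hαxi] at h
      exact Fermat.Agent.H99.SS2.InLoc.of_mem h𝔪p h
    have hαy : Fermat.Agent.H99.SS2.InLocMax ↥OK (ModelField K₁ (M' * q * q)) x⁻¹ 𝔪
        (asmα M' q K₁ xL⁻¹) := by
      rw [hαxi]
      refine ⟨1, fun h1 => h𝔪p.ne_top ((Ideal.eq_top_iff_one 𝔪).2 h1), ⟨x⁻¹, hxi⟩, hxi𝔪, ?_⟩
      simp
    -- `β` at the cusp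
    have hβxL : ((asmβ M' q K₁ xL : ModelField K₁ (M' * q * q)) : LaurentSeries K₁) =
        qExpand K₁ q (jqModC K₁) := by
      show ((heckeBetaBar K₁ (M' * q) q xL : ModelField K₁ (M' * q * q)) : LaurentSeries K₁) = _
      rw [coe_heckeBetaBar, hxL]
    obtain ⟨hφβ, hβy⟩ := Fermat.Agent.H99.SS2.modelCusp_beta (M' * q * q) q K₁ ↥OK hq x hx
      (asmβ M' q K₁) hβ xL hβxL 𝔪 h𝔪p (fun _ => hxi𝔪)
    exact Fermat.Agent.H99.SS2.asmPt_val3_cusp_below hinj' hinj q hirr hyLi hfdLi hyxi hfdxi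
      (asmα M' q K₁) (asmβ M' q K₁) hα hβ
      (vInf K₁ ↥OK (M' * q)) (vZero K₁ ↥OK (M' * q) W) V20 V11 V02 X₁ Y₁ Z hG.val3
      (hverti _ hG.vert20) (hverti _ hG.vert11) (hverti _ hG.vert02) hgaussi
      (Fermat.Agent.H99.SS2.modelFrac_vInf_inv M' q K₁ ↥OK hq hqM hqA xL hxLc W hW)
      (Fermat.Agent.H99.SS2.modelFrac_vZero_inv M' q K₁ ↥OK hq hqM hqA xL hxLc W hW)
      hregInv hcuspL 𝔪 h𝔪 hq𝔪 hφα hφβ hαy hβy (h11i 𝔪 h𝔪 hq𝔪)

end Model

end Fermat.Agent.H60.SS2Nine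

end
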