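import Fermat.Agent.H60.SS2Nine.PointsGen
import Fermat.Agent.H60.SS2Nine.ClassRegTwo
import Fermat.Agent.H93.SS2.KronRelModel9
import Fermat.Agent.H93.SS2.VertIffU
import Fermat.Agent.H41.SS2N.Val3DataNineU
import Fermat.Agent.H41.SS2N.SmoothGenNine
import Fermat.Agent.H66.SS2.RegLNine
import Fermat.Agent.H66.SS.HauptBasicsH9
import Fermat.Agent.H61.SS2.AsmGlobal
import Fermat.Agent.H46.SS2.AsmCusp
import Fermat.Agent.H35.SS2.AsmFinal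
import Fermat.Agent.H35.SS2.AsmGlue
import Fermat.Agent.H62.SS.AtkinLehnerModel
import Fermat.Agent.H53.ES.CycloFrob

/-!
# P-SS2, `q = 2` (helper60, row SS2-Q2): the geometric package and (KC-FF) at `q = 2`

For `9 ∣ M'`, `M'` odd:

* `reg11Hyp_of_ram_one` : for `q - 1 = 1` the hypothesis REG11 (`Reg11Hyp`) follows from REGL at
  the level below (`Fermat.Agent.H60.SS2Nine.reg11_two`): the blocks REG11 / CUSP11 are void.
* `asmGeom_two` : helper35's geometric package `AsmGeom M' 2 K₁ OK` over every unramified base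
  containing the roots of unity of order `3 M'`.
* `asmGeomLarge_two` : `AsmGeomLargeStatement M' 2`.
* `newInvariantFF_two` : **`NewInvariantFFStatement (M' * 2) 2`**, the contract (KC-FF) of
  helper11 at `q = 2`.

Plugged in: the keystone at level 9 (helper41 `modelVal3Data9U`, `modelVal3Inputs9`), the
Kronecker relations (helper93 `modelKronRel9`), REGL at `q = 2` (helper66 `regLR_two_h9S`,
`regLChartR_two_h9S`, helper41 `cuspGenR_three`), (G) (helper61), (C) (helper46), the per-point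
theorems (helper99), the final assembly (helper35 `newInvariantFF_of_geomLarge`).
-/

set_option autoImplicit false
set_option linter.style.haveILetI false
set_option linter.unusedSectionVars false
set_option linter.unusedVariables false
set_option maxHeartbeats 1600000

noncomputable section

namespace Fermat.Agent.H60.SS2Nine

open ModularCurve AlgebraicCurve
open Fermat.Agent.H22.KL Fermat.Agent.H11.SS2 Fermat.Agent.H82.SS Fermat.Agent.H7.SS2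
open Fermat.Agent.H35.SS2 Fermat.Agent.H19.SS2 Fermat.Agent.H31.SS Fermat.Agent.H93.KL

section Abs

variable {A : Type} [CommRing A] [IsDomain A] [IsDiscreteValuationRing A]
variable {E' : Type} [Field E'] [Algebra A E'] [CharZero E']
variable {E : Type} [Field E] [Algebra A E]

/-- **REG11 is void for `q - 1 = 1`**: the hypothesis `Reg11Hyp` from REGL at the level below. -/
theorem reg11Hyp_of_ram_one (hinj' : Function.Injective (algebraMap A E'))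
    (hinj : Function.Injective (algebraMap A E))
    (q : ℕ) (hq1 : q - 1 = 1) (hq : Irreducible ((q : ℕ) : A)) {y' : E'}
    (hy' : Transcendental A y')
    (hfd' : ∃ n : ℕ, Nonempty (Module.Basis (Fin n) (chartField A E' y') E'))
    {y : E} (hy : Transcendental A y)
    (α β : E' →+* E) (hα : ∀ a : A, α (algebraMap A E' a) = algebraMap A E a)
    (O₁ O₂ : ValuationSubring E') (V₂₀ V₁₁ V₀₂ : ValuationSubring E) (Y₁ : E') (Z : E)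
    (hval : Val3Data α β O₁ O₂ V₂₀ V₁₁ V₀₂ q Y₁ Z)
    (hV20 : IsVertical A E ((q : ℕ) : A) y V₂₀) (hV11 : IsVertical A E ((q : ℕ) : A) y V₁₁)
    (hV02 : IsVertical A E ((q : ℕ) : A) y V₀₂)
    (hgauss : ∀ z : E, z ∈ V₂₀ → z ∈ V₁₁ → z ∈ V₀₂ → z ∈ gaussClosure A E ((q : ℕ) : A) y)
    (hfrac10 : ∀ z' ∈ O₁, ∃ d₁ d₂ : chartClosure A E' y',
      (d₂ : E') ∉ O₁.nonunits ∧ z' * (d₂ : E') = d₁)
    (X Y : E')
    (hregL : ∀ 𝔪' : Ideal (chartClosure A E' y'), 𝔪'.IsMaximal →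
      algebraMap A (chartClosure A E' y') ((q : ℕ) : A) ∈ 𝔪' →
      RegLAt A E' ((q : ℕ) : A) y' 𝔪' O₁ O₂ X Y) :
    Reg11Hyp A E' E q α β O₁ O₂ V₂₀ V₁₁ V₀₂ y' y := by
  intro 𝔪 h𝔪 hq𝔪 𝔪α 𝔪β hmα hmβ hLα hLβ t11 n20 n02 a1 na2 b2 nb1
  have hqα : algebraMap A (chartClosure A E' y') ((q : ℕ) : A) ∈ 𝔪α := by
    rw [hLα.2]
    refine ⟨1, fun h1 => h𝔪.ne_top ((Ideal.eq_top_iff_one 𝔪).2 h1),
      algebraMap A (chartClosure A E y) ((q : ℕ) : A), hq𝔪, ?_⟩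
    rw [OneMemClass.coe_one, one_mul]
    exact hα _
  obtain ⟨U', hreg'⟩ := Fermat.Agent.H99.SS2.regLAt_smooth₁ (hregL 𝔪α hmα hqα) a1 na2
  obtain ⟨U, hU⟩ := reg11_two hinj' hinj q hq1 hq hy' hfd' hy α β hα O₁ O₂ V₂₀ V₁₁ V₀₂ Y₁ Z
    hval hV20 hV11 hV02 hgauss hfrac10 𝔪 h𝔪.isPrime 𝔪α hmα.isPrime hLα t11 n20 n02 U' hreg'
  exact ⟨_, U, hU⟩

end Abs

section Two

variable (M' : ℕ) [NeZero M']

/-- **The geometric package at `q = 2`** over an unramified base containing the roots of unity of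
order `3 M'`. -/
theorem asmGeom_two (hM : ¬ 2 ∣ M') (h9 : 9 ∣ M')
    (K₁ : Type) [Field K₁] [Algebra ℚ K₁] [FiniteDimensional ℚ K₁] (OK : ValuationSubring K₁)
    [IsDiscreteValuationRing ↥OK]
    [Algebra ↥OK (ModelField K₁ (M' * 2))] [IsScalarTower ↥OK K₁ (ModelField K₁ (M' * 2))]
    [Algebra ↥OK (ModelField K₁ (M' * 2 * 2))]
    [IsScalarTower ↥OK K₁ (ModelField K₁ (M' * 2 * 2))]
    (hirr : Irreducible ((2 : ℕ) : ↥OK)) (hζ : ∃ ζ : K₁, IsPrimitiveRoot ζ (3 * M')) :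
    AsmGeom M' 2 K₁ OK := by
  classical
  have hq : (2 : ℕ).Prime := Nat.prime_two
  haveI : Fact (2 : ℕ).Prime := ⟨hq⟩
  have hq3 : (2 : ℕ) ≠ 3 := by decide
  have hq1 : (2 : ℕ) - 1 = 1 := rfl
  have hcop : Nat.Coprime M' 2 := ((Nat.Prime.coprime_iff_not_dvd hq).2 hM).symm
  haveI hL : NeZero (M' * 2) := ⟨Nat.mul_ne_zero (NeZero.ne M') two_ne_zero⟩
  haveI hN : NeZero (M' * 2 * 2) :=
    ⟨Nat.mul_ne_zero (Nat.mul_ne_zero (NeZero.ne M') two_ne_zero) two_ne_zero⟩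
  haveI : CharZero K₁ := algebraRat.charZero K₁
  haveI : CharZero (ModelField K₁ (M' * 2)) :=
    charZero_of_injective_algebraMap (algebraMap K₁ (ModelField K₁ (M' * 2))).injective
  haveI : CharZero (ModelField K₁ (M' * 2 * 2)) :=
    charZero_of_injective_algebraMap (algebraMap K₁ (ModelField K₁ (M' * 2 * 2))).injective
  have hqA : ¬ IsUnit ((2 : ℕ) : ↥OK) := hirr.not_isUnit
  obtain ⟨Wq, hWq⟩ := Fermat.Agent.H62.SS.modelAtkinLehnerExists M' 2 hcop K₁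
  -- the keystone
  obtain ⟨X₁, Y₁, Z, V11, V02, hX, hY, hZ, hval⟩ :=
    Fermat.Agent.H41.SS2N.modelVal3Data9U K₁ ↥OK M' 2 hq hq3 h9 hM hirr Wq hWq
  obtain ⟨X₁', Y₁', Z', Pα, Pβ, hX', hY', hZ', hin'⟩ :=
    Fermat.Agent.H41.SS2N.modelVal3Inputs9 (K₁ := K₁) (A₀ := ↥OK) (M' := M') (q := 2)
      hq3 h9 hM hirr Wq hWq
  have eX' : X₁' = X₁ := Subtype.ext (hX'.trans hX.symm)
  have eY' : Y₁' = Y₁ := Subtype.ext (hY'.trans hY.symm)
  have eZ' : Z' = Z := Subtype.ext (hZ'.trans hZ.symm)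
  rw [eX', eY', eZ'] at hin'
  -- the charts and (G)
  obtain ⟨x, hx⟩ := asm_exists_chart (M' * 2 * 2) K₁
  obtain ⟨xL, hxL⟩ := asm_exists_chart (M' * 2) K₁
  have hxc : (x : LaurentSeries K₁) = coeffEmb K₁ jq := by rw [ss2_coeffEmb_jq]; exact hx
  have hxLc : (xL : LaurentSeries K₁) = coeffEmb K₁ jq := by rw [ss2_coeffEmb_jq]; exact hxL
  have hG := Fermat.Agent.H61.SS2.asmGlobal_of_val3 M' 2 hq hM K₁ OK hirr Wq hWq x hx
    (vInf K₁ ↥OK (M' * 2 * 2)) V11 V02 Y₁ Z hval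
  have hgauss : ∀ z : ModelField K₁ (M' * 2 * 2), z ∈ vInf K₁ ↥OK (M' * 2 * 2) → z ∈ V11 →
      z ∈ V02 → z ∈ gaussClosure ↥OK (ModelField K₁ (M' * 2 * 2)) ((2 : ℕ) : ↥OK) x :=
    fun z h1 h2 h3 => (hG.gauss z).2 ⟨h1, h2, h3⟩
  -- the Kronecker relations
  obtain ⟨hZB, hX₂, Gα, Gβ, hGα, hGβ, hrelα, hrelβ⟩ :=
    Fermat.Agent.H93.SS2.modelKronRel9 M' 2 K₁ ↥OK hq hq3 h9 hM
      (Fermat.Agent.H93.SS2.modelChartEqU M' 2) hirr Wq hWq X₁ Y₁ Z Pα Pβ hX hY hin' x hxc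
      (vInf K₁ ↥OK (M' * 2 * 2)) V11 V02 hval hgauss
  -- the Hauptmodul of level 9 at level `M' 2`
  obtain ⟨-, H, Hq, -, -, hH, hHq, -, -, -, -, -, -, -, -⟩ :=
    Fermat.Agent.H66.SSHaupt9.modelHauptBasicsH9 M' 2 h9 hq hq3 hM K₁ ↥OK hqA xL hxLc Wq hWq
  have hHc : (H : LaurentSeries K₁) = coeffEmb K₁ (h9S ℚ) := by
    rw [coeffEmb_h9S]; exact hH
  have hHqc : (Hq : LaurentSeries K₁) = qExpand K₁ 2 (coeffEmb K₁ (h9S ℚ)) := by
    rw [coeffEmb_h9S]; exact hHq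
  have eX : X₁ = Hq - H ^ 2 := by
    apply Subtype.ext
    rw [hX]
    show Fermat.Agent.H41.SS2N.sX1 K₁ 2 = (Hq : LaurentSeries K₁) - (H : LaurentSeries K₁) ^ 2
    rw [hH, hHq]
    rfl
  have eY : Y₁ = H - Hq ^ 2 := by
    apply Subtype.ext
    rw [hY]
    show Fermat.Agent.H41.SS2N.sY1 K₁ 2 = (H : LaurentSeries K₁) - (Hq : LaurentSeries K₁) ^ 2
    rw [hH, hHq]
    rfl
  -- REGL at level `M' 2`
  have hregChart : ∀ 𝔪' : Ideal (chartClosure ↥OK (ModelField K₁ (M' * 2)) xL), 𝔪'.IsMaximal →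
      algebraMap ↥OK (chartClosure ↥OK (ModelField K₁ (M' * 2)) xL) ((2 : ℕ) : ↥OK) ∈ 𝔪' →
      RegLAtOne ↥OK (ModelField K₁ (M' * 2)) ((2 : ℕ) : ↥OK) xL 𝔪'
        (vInf K₁ ↥OK (M' * 2)) (vZero K₁ ↥OK (M' * 2) Wq) X₁ Y₁ := by
    intro 𝔪' h𝔪' hq𝔪'
    rw [eX, eY]
    exact Fermat.Agent.H66.SS2Q2.regLChartR_two_h9S M' hM h9 K₁ ↥OK hirr hζ xL hxLc Wq hWq
      H Hq hHc hHqc 𝔪' h𝔪' hq𝔪'
  have hregInv : ∀ 𝔪' : Ideal (chartClosure ↥OK (ModelField K₁ (M' * 2)) xL⁻¹),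
      𝔪'.IsMaximal →
      algebraMap ↥OK (chartClosure ↥OK (ModelField K₁ (M' * 2)) xL⁻¹) ((2 : ℕ) : ↥OK) ∈ 𝔪' →
      RegLAt ↥OK (ModelField K₁ (M' * 2)) ((2 : ℕ) : ↥OK) xL⁻¹ 𝔪'
        (vInf K₁ ↥OK (M' * 2)) (vZero K₁ ↥OK (M' * 2) Wq) X₁ Y₁ := by
    intro 𝔪' h𝔪' hq𝔪'
    rw [eX, eY]
    exact Fermat.Agent.H66.SS2Q2.regLR_two_h9S M' hM h9 K₁ ↥OK hirr hζ xL hxLc Wq hWq
      H Hq hHc hHqc xL⁻¹ (Or.inr rfl) 𝔪' h𝔪' hq𝔪'
  have hcuspL : ∀ 𝔪' : Ideal (chartClosure ↥OK (ModelField K₁ (M' * 2)) xL⁻¹), 𝔪'.IsMaximal →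
      algebraMap ↥OK (chartClosure ↥OK (ModelField K₁ (M' * 2)) xL⁻¹) ((2 : ℕ) : ↥OK) ∈ 𝔪' →
      (∀ h : xL⁻¹ ∈ chartClosure ↥OK (ModelField K₁ (M' * 2)) xL⁻¹,
        (⟨xL⁻¹, h⟩ : chartClosure ↥OK (ModelField K₁ (M' * 2)) xL⁻¹) ∈ 𝔪') →
      ¬ (Through ↥OK (ModelField K₁ (M' * 2)) xL⁻¹ 𝔪' (vInf K₁ ↥OK (M' * 2)) ∧
        Through ↥OK (ModelField K₁ (M' * 2)) xL⁻¹ 𝔪' (vZero K₁ ↥OK (M' * 2) Wq)) := by
    intro 𝔪' h𝔪' hq𝔪' hc
    refine (Fermat.Agent.H41.SS2N.cuspGenR_three M' 2 hq hM K₁ ↥OK hqA hζ _ hirr xL hxLc Wq hWq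
      𝔪' h𝔪' hq𝔪' (fun s hs => ?_)).1
    have hmem : xL⁻¹ ∈ chartClosure ↥OK (ModelField K₁ (M' * 2)) xL⁻¹ :=
      Fermat.Agent.H99.SS2.self_mem_chartClosure xL⁻¹
    have e : s = ⟨xL⁻¹, hmem⟩ := Subtype.ext hs
    rw [e]
    exact hc hmem
  -- REG11 is void
  have hinj' : Function.Injective (algebraMap ↥OK (ModelField K₁ (M' * 2))) :=
    asm_algebraMap_injective (M' * 2) K₁ OK
  have hinj : Function.Injective (algebraMap ↥OK (ModelField K₁ (M' * 2 * 2))) :=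
    asm_algebraMap_injective (M' * 2 * 2) K₁ OK
  have hyL : Transcendental ↥OK xL := asm_transcendental (M' * 2) K₁ OK xL hxL
  have hfdL := asm_finite (M' * 2) K₁ OK xL hxL
  have hyx : Transcendental ↥OK x := asm_transcendental (M' * 2 * 2) K₁ OK x hx
  have hα := pg_alpha_algebraMap M' 2 K₁ OK
  have h11 : Reg11Hyp ↥OK (ModelField K₁ (M' * 2)) (ModelField K₁ (M' * 2 * 2)) 2
      (asmα M' 2 K₁) (asmβ M' 2 K₁) (vInf K₁ ↥OK (M' * 2)) (vZero K₁ ↥OK (M' * 2) Wq)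
      (vInf K₁ ↥OK (M' * 2 * 2)) V11 V02 xL x :=
    reg11Hyp_of_ram_one hinj' hinj 2 hq1 hirr hyL hfdL hyx (asmα M' 2 K₁) (asmβ M' 2 K₁) hα
      _ _ _ _ _ Y₁ Z hG.val3 hG.vert20 hG.vert11 hG.vert02 hgauss
      (Fermat.Agent.H99.SS2.modelFrac_vInf M' 2 K₁ ↥OK hq hM hqA xL hxLc Wq hWq) X₁ Y₁
      (fun 𝔪' h𝔪' hq𝔪' => (hregChart 𝔪' h𝔪' hq𝔪').regLAt h𝔪'.ne_top)
  have hyLi : Transcendental ↥OK xL⁻¹ := Fermat.Agent.H89.klg_transcendental_inv hyL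
  have hyxi : Transcendental ↥OK x⁻¹ := Fermat.Agent.H89.klg_transcendental_inv hyx
  have hfdLi : ∃ n : ℕ, Nonempty (Module.Basis (Fin n)
      (chartField ↥OK (ModelField K₁ (M' * 2)) xL⁻¹) (ModelField K₁ (M' * 2))) := by
    rw [Fermat.Agent.H89.klg_chartField_inv]
    exact hfdL
  obtain ⟨-, -, hCinv⟩ := Fermat.Agent.H89.gaussClosureStatement ↥OK
    (ModelField K₁ (M' * 2 * 2)) hinj _ hirr x hyx
  have hverti : ∀ V : ValuationSubring (ModelField K₁ (M' * 2 * 2)),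
      IsVertical ↥OK (ModelField K₁ (M' * 2 * 2)) ((2 : ℕ) : ↥OK) x V →
      IsVertical ↥OK (ModelField K₁ (M' * 2 * 2)) ((2 : ℕ) : ↥OK) x⁻¹ V := by
    intro V hV
    refine ⟨hV.1, hV.2.1, fun z hz => hV.2.2.1 z ?_, hV.2.2.2⟩
    rw [← hCinv]
    exact hz
  have hgaussi : ∀ z : ModelField K₁ (M' * 2 * 2), z ∈ vInf K₁ ↥OK (M' * 2 * 2) → z ∈ V11 →
      z ∈ V02 → z ∈ gaussClosure ↥OK (ModelField K₁ (M' * 2 * 2)) ((2 : ℕ) : ↥OK) x⁻¹ := by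
    intro z h1 h2 h3
    rw [hCinv]
    exact hgauss z h1 h2 h3
  have h11i : Reg11Hyp ↥OK (ModelField K₁ (M' * 2)) (ModelField K₁ (M' * 2 * 2)) 2
      (asmα M' 2 K₁) (asmβ M' 2 K₁) (vInf K₁ ↥OK (M' * 2)) (vZero K₁ ↥OK (M' * 2) Wq)
      (vInf K₁ ↥OK (M' * 2 * 2)) V11 V02 xL⁻¹ x⁻¹ :=
    reg11Hyp_of_ram_one hinj' hinj 2 hq1 hirr hyLi hfdLi hyxi (asmα M' 2 K₁) (asmβ M' 2 K₁) hα
      _ _ _ _ _ Y₁ Z hG.val3 (hverti _ hG.vert20) (hverti _ hG.vert11) (hverti _ hG.vert02)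
      hgaussi
      (Fermat.Agent.H99.SS2.modelFrac_vInf_inv M' 2 K₁ ↥OK hq hM hqA xL hxLc Wq hWq) X₁ Y₁
      hregInv
  -- (P)
  have hP := asmPoints_of_inputs M' 2 K₁ OK hq hM hirr Wq hWq x hx xL hxL X₁ Y₁ Z
    (vInf K₁ ↥OK (M' * 2 * 2)) V11 V02 hG hZB hX₂ Gα Gβ hGα hGβ hrelα hrelβ hregChart hregInv
    hcuspL h11 h11i
  exact ⟨x, _, _, _, V11, V02, Y₁, Z, hG, hP,
    fun n hn _ => Fermat.Agent.H46.SS2.asmCusp_of_global M' 2 K₁ OK hirr hG n hn⟩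

/-- **The geometric package at `q = 2`, in the form consumed by the assembly.** -/
theorem asmGeomLarge_two (hM : ¬ 2 ∣ M') (h9 : 9 ∣ M') : AsmGeomLargeStatement M' 2 := by
  intro A hA
  classical
  have hR0 : 0 < 3 * M' := Nat.mul_pos (by norm_num) (Nat.pos_of_ne_zero (NeZero.ne M'))
  have hR2 : ¬ 2 ∣ 3 * M' := by
    intro h
    rcases (Nat.Prime.dvd_mul Nat.prime_two).1 h with h3 | h3
    · exact absurd h3 (by decide)
    · exact hM h3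
  haveI : NeZero (((3 * M' : ℕ) : ℕ) : ℚ) := ⟨Nat.cast_ne_zero.mpr hR0.ne'⟩
  obtain ⟨ζ, hζ⟩ := HasEnoughRootsOfUnity.exists_primitiveRoot QBar (3 * M')
  refine ⟨{ζ}, ?_, ?_⟩
  · intro s hs σ hσ
    rw [Finset.mem_singleton] at hs
    subst hs
    exact Fermat.Agent.H53.apply_rootOfUnity_of_mem_inertiaSubgroupIn hσ
      (ss2_natCast_notMem_nonunits Nat.prime_two A hA hR2) hζ.pow_eq_one
  · intro K₁ _ _ _ ι hunr hS _ _ _ _ _ hirr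
    obtain ⟨ζ', hζ'⟩ := hS ζ (Finset.mem_singleton_self ζ)
    have hζK : IsPrimitiveRoot ζ' (3 * M') :=
      IsPrimitiveRoot.of_map_of_injective (f := ι) (by rw [hζ']; exact hζ) ι.injective
    exact asmGeom_two M' hM h9 K₁ (A.comap ι) hirr ⟨ζ', hζK⟩

/-- **(KC-FF) at `q = 2`**: `NewInvariantFFStatement (M' * 2) 2` for `9 ∣ M'`, `M'` odd. -/
theorem newInvariantFF_two (hM : ¬ 2 ∣ M') (h9 : 9 ∣ M') :
    NewInvariantFFStatement (M' * 2) 2 :=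
  newInvariantFF_of_geomLarge M' 2 Nat.prime_two (asmGeomLarge_two M' hM h9)

end Two

end Fermat.Agent.H60.SS2Nine

end
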