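import Mathlib
import Fermat.Agent.H8.SS.Theta

/-!
# P-SS2 (helper60): the reductions `Ȳ1 ≠ 0`, `Z̄ ≠ 0`, `δ̄ ≠ 0` for an ARBITRARY Hauptmodul series

Generic form of helper90's `ModelRedStatement` (row SS2-C1-RED), valid for every prime `q` and
every `u = t⁻¹ + a₀ + … ∈ ℤ((t))` with `q ∤ a₀`:

* `red_gen` : `redQ q (u - u(t^q)^q) ≠ 0`, `redQ q (u(t^(q²)) - u) ≠ 0`, and
  `u(t^q) - u^q = q δ`, `u(t^(q²)) - u(t^q)^q = q δ(t^q)` with `redQ q δ ≠ 0`.

Instances: `u = h4S ℤ` (`a₀ = -8`, `q` odd), `u = h9S ℤ` (`a₀ = -3`, `q ≠ 3`, in particular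
`q = 2`).
-/

set_option autoImplicit false

namespace Fermat.Agent.H60.SS2Nine

open ModularCurve Fermat.Agent.H8.SS

noncomputable section

/-- A Laurent series with `c(t^q) = c`, `q ≥ 2`, has no nonconstant terms. -/
theorem rg_coeff_eq_zero_of_qExpand_eq {k : Type*} [CommRing k] (q : ℕ) [NeZero q] (hq : 2 ≤ q)
    (c : LaurentSeries k) (h : qExpand k q c = c) : ∀ n : ℤ, n ≠ 0 → c.coeff n = 0 := by
  intro n
  induction' hm : n.natAbs using Nat.strong_induction_on with m ih generalizing n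
  intro hn0
  by_cases hd : (q : ℤ) ∣ n
  · obtain ⟨j, rfl⟩ := hd
    have hj0 : j ≠ 0 := by
      rintro rfl
      simp at hn0
    rw [← h, qExpand_coeff_mul]
    refine ih j.natAbs ?_ j rfl hj0
    rw [← hm, Int.natAbs_mul, Int.natAbs_natCast]
    have hjpos : 0 < j.natAbs := Int.natAbs_pos.mpr hj0
    nlinarith
  · rw [← h, qExpand_coeff_of_not_dvd q c hd]

/-- A Laurent series with `c(t^q) = c`, `q ≥ 2`, is constant. -/
theorem rg_eq_C_of_qExpand_eq {k : Type*} [CommRing k] (q : ℕ) [NeZero q] (hq : 2 ≤ q)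
    (c : LaurentSeries k) (h : qExpand k q c = c) : c = HahnSeries.C (c.coeff 0) := by
  ext n
  rw [HahnSeries.C_apply, HahnSeries.coeff_single]
  split_ifs with hn
  · rw [hn]
  · exact rg_coeff_eq_zero_of_qExpand_eq q hq c h n hn

theorem rg_not_dvd_neg_one {q : ℕ} (hq : 2 ≤ q) : ¬ (q : ℤ) ∣ (-1 : ℤ) := by
  intro h
  have h1 : (q : ℤ) ∣ 1 := (Int.dvd_neg).mp h
  have h2 : q ∣ 1 := by exact_mod_cast h1
  have := Nat.le_of_dvd one_pos h2
  omega

/-- `δ̄ ≠ 0`: the reduction of the Frobenius defect of `u = t⁻¹ + a₀ + …`, `q ∤ a₀`, is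
nonzero. -/
theorem rg_redQ_delta_ne_zero (q : ℕ) [NeZero q] [Fact q.Prime] (u : LaurentSeries ℤ)
    (hu1 : u.coeff (-1) = 1) (hu0 : ¬ (q : ℤ) ∣ u.coeff 0)
    (δ : LaurentSeries ℤ) (hδ : qExpand ℤ q u = u ^ q + (q : ℤ) • δ) :
    redQ q δ ≠ 0 := by
  have hq : q.Prime := Fact.out
  intro hδ0
  have hθ := theta_delta_mod q u δ hδ
  rw [hδ0, map_zero] at hθ
  set v : LaurentSeries (ZMod q) := redQ q u with hv
  set w : LaurentSeries (ZMod q) := theta v with hw
  have hv1 : v.coeff (-1) = 1 := by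
    rw [hv, coeffMap_coeff, hu1]
    simp
  have hv0 : v.coeff 0 ≠ 0 := by
    rw [hv, coeffMap_coeff]
    intro h0
    rw [eq_intCast] at h0
    exact hu0 ((ZMod.intCast_zmod_eq_zero_iff_dvd _ _).mp h0)
  have hv_ne : v ≠ 0 := by
    intro h0
    rw [h0] at hv1
    simp at hv1
  have hw1 : w.coeff (-1) = -1 := by
    rw [hw, theta_coeff, hv1]
    simp
  have hw0 : w.coeff 0 = 0 := by
    rw [hw, theta_coeff]
    simp
  have hwq : w ^ q = v ^ (q - 1) * w := by
    have := sub_eq_zero.mp hθ.symm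
    exact this
  have hq1 : q - 1 + 1 = q := Nat.sub_add_cancel hq.one_le
  -- `c = w / v` is fixed by Frobenius
  set c : LaurentSeries (ZMod q) := w / v with hc
  have hcv : c * v = w := div_mul_cancel₀ w hv_ne
  have hcq : c ^ q = c := by
    have hpow : ∀ x : LaurentSeries (ZMod q), x ^ q = x ^ (q - 1) * x := by
      intro x
      rw [← pow_succ, hq1]
    have h1 : c ^ q * v ^ q = c * v ^ q := by
      rw [← mul_pow, hcv, hwq, ← hcv, hpow v]
      ring
    exact mul_right_cancel₀ (pow_ne_zero q hv_ne) h1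
  have hfix : qExpand (ZMod q) q c = c := by
    rw [← Fermat.Agent.H42.laurent_pow_eq_qExpand, hcq]
  have hC := rg_eq_C_of_qExpand_eq q hq.two_le c hfix
  set a : ZMod q := c.coeff 0 with ha
  have hwa : ∀ n : ℤ, w.coeff n = a * v.coeff n := by
    intro n
    rw [← hcv, hC, HahnSeries.C_mul_eq_smul, HahnSeries.coeff_smul, smul_eq_mul]
  have ha1 : a = -1 := by
    have := hwa (-1)
    rw [hw1, hv1, mul_one] at this
    exact this.symm
  have := hwa 0
  rw [hw0, ha1] at this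
  apply hv0
  have h' : v.coeff 0 = -(-1 * v.coeff 0) := by ring
  rw [h', ← this, neg_zero]

/-- **RED, generic form**: for `u = t⁻¹ + a₀ + …` with `q ∤ a₀`. -/
theorem red_gen (q : ℕ) [NeZero q] [Fact q.Prime] (u : LaurentSeries ℤ)
    (hu1 : u.coeff (-1) = 1) (hu0 : ¬ (q : ℤ) ∣ u.coeff 0) :
    redQ q (u - qExpand ℤ q u ^ q) ≠ 0 ∧
    redQ q (qExpand ℤ q (qExpand ℤ q u) - u) ≠ 0 ∧
    ∃ δ : LaurentSeries ℤ,
      qExpand ℤ q u - u ^ q = (q : LaurentSeries ℤ) * δ ∧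
      qExpand ℤ q (qExpand ℤ q u) - qExpand ℤ q u ^ q = (q : LaurentSeries ℤ) * qExpand ℤ q δ ∧
      redQ q δ ≠ 0 := by
  have hq : q.Prime := Fact.out
  have hnd : ¬ (q : ℤ) ∣ (-1 : ℤ) := rg_not_dvd_neg_one hq.two_le
  haveI : Fact (1 < q) := ⟨hq.one_lt⟩
  have hH1 : (qExpand ℤ q u ^ q).coeff (-1) = 0 := by
    rw [← map_pow]
    exact qExpand_coeff_of_not_dvd q _ hnd
  have hH2 : (qExpand ℤ q (qExpand ℤ q u)).coeff (-1) = 0 :=
    qExpand_coeff_of_not_dvd q _ hnd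
  refine ⟨?_, ?_, ?_⟩
  · intro h
    have h1 := congrArg (fun z : LaurentSeries (ZMod q) => z.coeff (-1)) h
    simp only [coeffMap_coeff, HahnSeries.coeff_zero] at h1
    have hc : (u - qExpand ℤ q u ^ q).coeff (-1) = 1 := by
      rw [HahnSeries.coeff_sub, hu1, hH1, sub_zero]
    rw [hc] at h1
    simp at h1
  · intro h
    have h1 := congrArg (fun z : LaurentSeries (ZMod q) => z.coeff (-1)) h
    simp only [coeffMap_coeff, HahnSeries.coeff_zero] at h1
    have hc : (qExpand ℤ q (qExpand ℤ q u) - u).coeff (-1) = -1 := by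
      rw [HahnSeries.coeff_sub, hu1, hH2, zero_sub]
    rw [hc] at h1
    simp at h1
  · obtain ⟨δ, hδ⟩ := exists_delta q u
    refine ⟨δ, ?_, ?_, rg_redQ_delta_ne_zero q u hu1 hu0 δ hδ⟩
    · rw [hδ, add_sub_cancel_left, zsmul_eq_mul]
      simp
    · rw [← map_pow, ← map_sub, hδ, add_sub_cancel_left, zsmul_eq_mul, map_mul]
      simp

end

end Fermat.Agent.H60.SS2Nine
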