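import Fermat.Agent.H60.SS2Nine.H9Coeff
import Fermat.Agent.H60.SS2Nine.RedGen
import Fermat.Agent.H6.SS2.NormZGen

/-!
# P-SS2, `q = 2` twin (helper60): the series-level leaves RED and NORMZ for the level-9
Hauptmodul `H₉ = h9S`

* `red_h9 q (hq3 : q ≠ 3)` : twin of `Fermat.Agent.H90.SS2Red.modelRed` (row SS2-C1-RED) with
  `H = h9S ℤ` instead of `h4S ℤ`; valid for every prime `q ≠ 3`, in particular `q = 2`.
* `normZ_h9 q` : twin of `Fermat.Agent.H6.SS2.modelNormZ` (row SS2-C1-NORMZ), every prime `q`.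
-/

set_option autoImplicit false

noncomputable section

namespace Fermat.Agent.H60.SS2Nine

open Polynomial ModularCurve Fermat.Agent.H8.SS Fermat.Agent.H31.SS

theorem not_dvd_h9S_coeff_zero (q : ℕ) [hq : Fact q.Prime] (hq3 : q ≠ 3) :
    ¬ (q : ℤ) ∣ (h9S ℤ).coeff 0 := by
  rw [h9S_coeff_zero]
  intro h
  have h1 : (q : ℤ) ∣ 3 := (Int.dvd_neg).mp h
  have h2 : q ∣ 3 := by exact_mod_cast h1
  exact hq3 ((Nat.prime_dvd_prime_iff_eq hq.out Nat.prime_three).mp h2)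

/-- **RED at level 9** (`q ≠ 3`, e.g. `q = 2`): with `H = h9S ℤ`, `H1 = H(t^q)`,
`H2 = H(t^(q²))`: the reductions of `Y1 = H - H1^q` and `Z = H2 - H` are nonzero, and
`X1 = H1 - H^q = q δ`, `X2 = H2 - H1^q = q δ(t^q)` with `δ̄ ≠ 0`. -/
theorem red_h9 (q : ℕ) [NeZero q] [Fact q.Prime] (hq3 : q ≠ 3) :
    redQ q (h9S ℤ - qExpand ℤ q (h9S ℤ) ^ q) ≠ 0 ∧
    redQ q (qExpand ℤ q (qExpand ℤ q (h9S ℤ)) - h9S ℤ) ≠ 0 ∧
    ∃ δ : LaurentSeries ℤ,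
      qExpand ℤ q (h9S ℤ) - h9S ℤ ^ q = (q : LaurentSeries ℤ) * δ ∧
      qExpand ℤ q (qExpand ℤ q (h9S ℤ)) - qExpand ℤ q (h9S ℤ) ^ q =
        (q : LaurentSeries ℤ) * qExpand ℤ q δ ∧
      redQ q δ ≠ 0 :=
  red_gen q (h9S ℤ) (h9S_coeff_neg_one ℤ) (not_dvd_h9S_coeff_zero q hq3)

/-- **NORMZ at level 9** (every prime `q`). -/
theorem normZ_h9 (q : ℕ) [NeZero q] [Fact q.Prime] (Pst : Polynomial (LaurentSeries ℤ))
    (h : (X - C (h9S ℤ)) * Pst = (heckeU q (h9S ℤ)).map (qExpand ℤ q)) :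
    ∃ B : LaurentSeries ℤ, Pst.eval (h9S ℤ) = (q : LaurentSeries ℤ) * B ∧ redQ q B ≠ 0 :=
  Fermat.Agent.H6.SS2.normZ_gen q (h9S ℤ) (h9S_coeff_neg_one ℤ)
    (fun _ hn => h9S_coeff_of_lt ℤ hn) Pst h

end Fermat.Agent.H60.SS2Nine

end
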